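/-
S30 row -- PIECE `OccCoord` (helper169): `exists_eigen_parLattice_coord`, with EXACTLY the type of
`exists_eigen_parLattice_coord` in `origin/helper49:Fermat/Agent/S30/SkeletonLat.lean`.

Every character `χ` of the Hecke algebra with values in a characteristic-zero domain `R` occurs
in `Hom_par(Γ₀(N), ℤ) ⊗ R`, in coordinates.

Proof: adapter.  `H829.exists_eigen_parabolicHom_adic` (on main) gives a nonzero parabolic
eigen-homomorphism `φ : Γ₀(N) → R`; its image spans a finitely generated torsion-free, hence free,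
`ℤ`-submodule `W ⊆ R`; `c j` are the coordinates of `φ` in a `ℤ`-basis `b j` of `W`, `w j := b j`.
The Hecke operator `heckeCoh` of `S29.DefsM` is the transfer sum of `H201`
(`S29.M4aTop_heckeCoh_eq_sum_trf`, on main).
-/
import Fermat.Agent.S29.DefsM
import Fermat.Agent.S29.M4a.Fac
import Fermat.Agent.S29.M4a.Top
import Fermat.Agent.S30.H829.OccAdicHecke

set_option autoImplicit false

noncomputable section

namespace Fermat.Agent.S30.H169

open Fermat.Agent.S29 (G0 IsParHom heckeCoh)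
open CongruenceSubgroup ModularCurve ModularCurve.Period
open scoped MatrixGroups

/-- PIECE `OccCoord` of the S30 lattice layer. -/
theorem exists_eigen_parLattice_coord (N : ℕ) [NeZero N] (S : Set ℕ) (R : Type) [CommRing R]
    [IsDomain R] [CharZero R] (χ : CuspForm.heckeAlgebra N 2 S →+* R) :
    ∃ (n : ℕ) (w : Fin n → R) (c : Fin n → G0 N → ℤ),
      (∀ j, IsParHom (c j)) ∧ (∃ γ : G0 N, ∑ j, w j * ((c j γ : ℤ) : R) ≠ 0) ∧
      ∀ (ℓ : ℕ) (hℓ : ℓ.Prime) (hℓN : ¬ ℓ ∣ N) (hℓS : ℓ ∉ S) (γ : G0 N),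
        ∑ j, w j * ((heckeCoh N ℓ (c j) γ : ℤ) : R)
          = χ (CuspForm.heckeAlgebra.T hℓ hℓN hℓS) * ∑ j, w j * ((c j γ : ℤ) : R) := by
  classical
  obtain ⟨φ, hφ0, hpar, hecke⟩ := Fermat.Agent.S30.H829.exists_eigen_parabolicHom_adic N S χ
  -- a finite generating set
  obtain ⟨S₀, hS₀, hS₀fin⟩ := Group.fg_iff.mp (Fermat.Agent.S29.M4aTop_fg_Gamma0 N)
  set W : Submodule ℤ R :=
    Submodule.span ℤ ((fun x : Gamma0 N => φ (Additive.ofMul x)) '' S₀) with hW
  have hmem : ∀ γ : Gamma0 N, φ (Additive.ofMul γ) ∈ W :=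
    fun γ => Fermat.Agent.S29.M4aTop_mem_span φ S₀ hS₀ γ
  have : Module.Finite ℤ W := Module.Finite.span_of_finite ℤ (hS₀fin.image _)
  have : Module.Free ℤ W := Module.free_of_finite_type_torsion_free'
  let b := Module.finBasis ℤ W
  -- the coordinates
  let X : G0 N → W := fun γ => ⟨φ (Additive.ofMul γ), hmem γ⟩
  have hXmul : ∀ γ γ' : G0 N, X (γ * γ') = X γ + X γ' := fun γ γ' =>
    Subtype.ext (by simp only [X, ofMul_mul, map_add, Submodule.coe_add])
  have hX0 : ∀ γ : G0 N, φ (Additive.ofMul γ) = 0 → X γ = 0 := fun γ h => Subtype.ext h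
  have hsum : ∀ γ : G0 N, φ (Additive.ofMul γ)
      = ∑ j, (b j : R) * ((b.repr (X γ) j : ℤ) : R) := by
    intro γ
    have h1 := congrArg (fun x : W => (x : R)) (b.sum_repr (X γ))
    simp only [Submodule.coe_sum, Submodule.coe_smul] at h1
    rw [show φ (Additive.ofMul γ) = ((X γ : W) : R) from rfl, ← h1]
    refine Finset.sum_congr rfl fun j _ => ?_
    rw [zsmul_eq_mul, mul_comm]
  refine ⟨Module.finrank ℤ W, fun j => (b j : R), fun j γ => b.repr (X γ) j, ?_, ?_, ?_⟩
  · intro j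
    refine ⟨fun γ γ' => ?_, fun γ hγ => ?_, fun γ n hn hγ => ?_⟩
    · show b.repr (X (γ * γ')) j = b.repr (X γ) j + b.repr (X γ') j
      rw [hXmul, map_add, Finsupp.add_apply]
    · show b.repr (X γ) j = 0
      have h4 : (((γ : Gamma0 N) : SL(2, ℤ)) : Matrix (Fin 2) (Fin 2) ℤ).trace ^ 2 = 4 := by
        have h5 : Fermat.Agent.S29.G0.mat γ
            = (((γ : Gamma0 N) : SL(2, ℤ)) : Matrix (Fin 2) (Fin 2) ℤ) := rfl
        rw [h5] at hγ
        rcases hγ with h | h <;> rw [h] <;> norm_num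
      rw [hX0 γ (hpar γ h4), map_zero, Finsupp.zero_apply]
    · show b.repr (X γ) j = 0
      have h6 : (n : ℤ) • φ (Additive.ofMul γ) = 0 := by
        rw [natCast_zsmul, ← map_nsmul, ← ofMul_pow, hγ, ofMul_one, map_zero]
      have h7 : φ (Additive.ofMul γ) = 0 := by
        rw [zsmul_eq_mul] at h6
        rcases mul_eq_zero.mp h6 with h | h
        · exact absurd (by exact_mod_cast h) hn.ne'
        · exact h
      rw [hX0 γ h7, map_zero, Finsupp.zero_apply]
  · by_contra hcon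
    rw [not_exists] at hcon
    apply hφ0
    ext γ
    have h8 := hsum (Additive.toMul γ)
    have h9 := not_not.mp (hcon (Additive.toMul γ))
    show φ (Additive.ofMul (Additive.toMul γ)) = 0
    rw [h8]
    exact h9
  · intro ℓ hℓ hℓN hℓS γ
    have : Fact ℓ.Prime := ⟨hℓ⟩
    have hk := hecke ℓ hℓ hℓN hℓS
    have h10 : ∀ j, ((heckeCoh N ℓ (fun γ => b.repr (X γ) j) γ : ℤ) : R)
        = ∑ x : OnePoint (ZMod ℓ),
            ((b.repr (X (Fermat.Agent.S29.H201.trf hℓN γ x)) j : ℤ) : R) := by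
      intro j
      rw [Fermat.Agent.S29.M4aTop_heckeCoh_eq_sum_trf hℓN]
      push_cast
      rfl
    calc ∑ j, (b j : R) * ((heckeCoh N ℓ (fun γ => b.repr (X γ) j) γ : ℤ) : R)
        = ∑ j, ∑ x : OnePoint (ZMod ℓ),
            (b j : R) * ((b.repr (X (Fermat.Agent.S29.H201.trf hℓN γ x)) j : ℤ) : R) := by
          refine Finset.sum_congr rfl fun j _ => ?_
          rw [h10 j, Finset.mul_sum]
      _ = ∑ x : OnePoint (ZMod ℓ), φ (Additive.ofMul (Fermat.Agent.S29.H201.trf hℓN γ x)) := by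
          rw [Finset.sum_comm]
          refine Finset.sum_congr rfl fun x _ => ?_
          rw [hsum]
      _ = Fermat.Agent.S29.H201.heckeHom ℓ hℓN R φ (Additive.ofMul γ) := by
          rw [Fermat.Agent.S29.H201.heckeHom_apply]
      _ = χ (CuspForm.heckeAlgebra.T hℓ hℓN hℓS) * φ (Additive.ofMul γ) := by
          rw [hk]
          rfl
      _ = χ (CuspForm.heckeAlgebra.T hℓ hℓN hℓS)
            * ∑ j, (b j : R) * ((b.repr (X γ) j : ℤ) : R) := by
          rw [hsum]

end Fermat.Agent.S30.H169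

end
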